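import Fermat.Agent.MU.Lib.FFL.Defs
import Fermat.Agent.Lib.Cyclo.RootsReduce

section MergeWrap_Lib_FFL_Arith -- from Lib/FFL/Arith.lean

set_option autoImplicit false

namespace Fermat.Agent.FFL

open Polynomial Fermat.Agent.Cyclo

local notation "Kb" => AlgebraicClosure ℚ
local notation "GK" => (AlgebraicClosure ℚ ≃ₐ[ℚ] AlgebraicClosure ℚ)

variable {p : ℕ} {P : ValuationSubring Kb}

/-- Integers are in `P`. -/
theorem ar_intCast_mem (P : ValuationSubring Kb) (n : ℤ) : (n : Kb) ∈ P := intCast_mem P n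

/-- `p` has valuation `< 1`. -/
theorem ar_val_p_lt (hP : P.LiesOverPrime p) : P.valuation (p : Kb) < 1 :=
  (ValuationSubring.mem_nonunits_iff P).1 hP

theorem ar_p_ne_zero (hp : p.Prime) : (p : Kb) ≠ 0 := by
  exact_mod_cast hp.ne_zero

/-- An integer not divisible by `p` has valuation `1`. -/
theorem ar_val_int_eq_one (hp : p.Prime) (hP : P.LiesOverPrime p) {n : ℤ} (hn : ¬ (p : ℤ) ∣ n) :
    P.valuation (n : Kb) = 1 := by
  have h1 : P.valuation (n : Kb) ≤ 1 := (ValuationSubring.valuation_le_one_iff P _).2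
    (ar_intCast_mem P n)
  refine le_antisymm h1 (not_lt.1 fun hlt => ?_)
  have h2 : (n : Kb) ∈ P.nonunits := (ValuationSubring.mem_nonunits_iff P).2 hlt
  have h3 : ¬ p ∣ n.natAbs := fun h => hn (Int.natCast_dvd.2 h)
  have h4 := natCast_not_mem_nonunits P hp hP h3
  have h5 : ((n.natAbs : ℕ) : Kb) = (n : Kb) ∨ ((n.natAbs : ℕ) : Kb) = -(n : Kb) := by
    rcases Int.natAbs_eq n with h | h
    · left
      have h6 : (n : Kb) = (((n.natAbs : ℕ) : ℤ) : Kb) := congrArg (Int.cast : ℤ → Kb) h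
      rw [Int.cast_natCast] at h6
      exact h6.symm
    · right
      have h6 : (n : Kb) = ((-((n.natAbs : ℕ) : ℤ) : ℤ) : Kb) := congrArg (Int.cast : ℤ → Kb) h
      rw [Int.cast_neg, Int.cast_natCast] at h6
      rw [h6, neg_neg]
  rcases h5 with h | h
  · exact h4 (h ▸ h2)
  · exact h4 (h ▸ nonunits_neg_mem P h2)

/-- An integer divisible by `p` has valuation `≤ v(p)`. -/
theorem ar_val_int_le (P : ValuationSubring Kb) {n : ℤ} (hn : (p : ℤ) ∣ n) :
    P.valuation (n : Kb) ≤ P.valuation (p : Kb) := by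
  obtain ⟨m, rfl⟩ := hn
  have h1 : P.valuation (m : Kb) ≤ 1 := (ValuationSubring.valuation_le_one_iff P _).2
    (ar_intCast_mem P m)
  push_cast
  rw [map_mul]
  calc P.valuation (p : Kb) * P.valuation (m : Kb) ≤ P.valuation (p : Kb) * 1 :=
        mul_le_mul_right h1 _
    _ = _ := mul_one _

/-- Every element of `ℚ̄` is a root of an integer polynomial with a coefficient prime to `p`. -/
theorem ar_exists_primitive (hp : p.Prime) (t : Kb) :
    ∃ q : ℤ[X], q ≠ 0 ∧ aeval t q = 0 ∧ ∃ i, ¬ (p : ℤ) ∣ q.coeff i := by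
  have halg : Algebra.IsAlgebraic ℚ Kb := AlgebraicClosure.isAlgebraic ℚ
  have h1 : IsAlgebraic ℤ t :=
    (IsFractionRing.isAlgebraic_iff ℤ ℚ Kb).2 (Algebra.IsAlgebraic.isAlgebraic t)
  obtain ⟨q, hq0, hq⟩ := h1
  refine ⟨q.primPart, primPart_ne_zero q, aeval_primPart_eq_zero hq0 hq, ?_⟩
  by_contra hall
  push Not at hall
  have h2 : C (p : ℤ) ∣ q.primPart := (C_dvd_iff_dvd_coeff _ _).2 hall
  have h3 := (isPrimitive_primPart q) (p : ℤ) h2
  rw [Int.isUnit_iff] at h3
  have := hp.one_lt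
  omega

/-- **ARCH**: a nonunit of `P` has a power divisible by `p`. -/
theorem archProp (hp : p.Prime) (hP : P.LiesOverPrime p) : ArchProp p P := by
  classical
  intro t ht
  by_cases ht0 : t = 0
  · exact ⟨1, by rw [ht0]; simp [P.zero_mem]⟩
  obtain ⟨q, -, hq, hex⟩ := ar_exists_primitive hp t
  let i₀ := Nat.find hex
  have hi₀ : ¬ (p : ℤ) ∣ q.coeff i₀ := Nat.find_spec hex
  have hlt : ∀ i, i < i₀ → (p : ℤ) ∣ q.coeff i := fun i hi => by
    by_contra h
    exact Nat.find_min hex hi h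
  refine ⟨i₀, ?_⟩
  by_contra hcon
  have hvt : P.valuation t < 1 := (ValuationSubring.mem_nonunits_iff P).1 ht
  have hvt0 : P.valuation t ≠ 0 := (Valuation.ne_zero_iff _).2 ht0
  have hvt0' : 0 < P.valuation t := zero_lt_iff.2 hvt0
  have hvp0 : P.valuation (p : Kb) ≠ 0 := (Valuation.ne_zero_iff _).2 (ar_p_ne_zero hp)
  have hcon' : P.valuation (p : Kb) < P.valuation t ^ i₀ := by
    rw [← ValuationSubring.valuation_le_one_iff, not_le, map_div₀, map_pow] at hcon
    rwa [one_lt_div₀ (zero_lt_iff.2 hvp0)] at hcon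
  have hg0 : P.valuation t ^ i₀ ≠ 0 := pow_ne_zero _ hvt0
  have hmem : i₀ ∈ Finset.range (q.natDegree + 1) := by
    rw [Finset.mem_range, Nat.lt_succ_iff]
    apply le_natDegree_of_ne_zero
    intro h0
    exact hi₀ (by rw [h0]; exact dvd_zero _)
  have hsum := aeval_eq_sum_range (p := q) t
  rw [hq, ← Finset.add_sum_erase _ _ hmem] at hsum
  have hterm : P.valuation (q.coeff i₀ • t ^ i₀) = P.valuation t ^ i₀ := by
    rw [zsmul_eq_mul, map_mul, ar_val_int_eq_one hp hP hi₀, one_mul, map_pow]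
  have hrest : P.valuation (∑ i ∈ (Finset.range (q.natDegree + 1)).erase i₀, q.coeff i • t ^ i)
      < P.valuation t ^ i₀ := by
    apply Valuation.map_sum_lt _ hg0
    intro i hi
    have hne : i ≠ i₀ := (Finset.mem_erase.1 hi).1
    have hc1 : P.valuation (q.coeff i : Kb) ≤ 1 :=
      (ValuationSubring.valuation_le_one_iff P _).2 (ar_intCast_mem P _)
    rw [zsmul_eq_mul, map_mul, map_pow]
    rcases lt_or_gt_of_ne hne with h | h
    · have h1 := ar_val_int_le P (hlt i h)
      have h2 : P.valuation t ^ i ≤ 1 := pow_le_one₀ (le_of_lt hvt0') (le_of_lt hvt)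
      calc P.valuation (q.coeff i : Kb) * P.valuation t ^ i
          ≤ P.valuation (p : Kb) * 1 := mul_le_mul' h1 h2
        _ = P.valuation (p : Kb) := mul_one _
        _ < _ := hcon'
    · have h2 : P.valuation t ^ i < P.valuation t ^ i₀ :=
        pow_lt_pow_right_of_lt_one₀ hvt0' hvt h
      calc P.valuation (q.coeff i : Kb) * P.valuation t ^ i
          ≤ 1 * P.valuation t ^ i := mul_le_mul' hc1 le_rfl
        _ = P.valuation t ^ i := one_mul _
        _ < _ := h2
  have hfin := Valuation.map_add_eq_of_lt_left P.valuation (hterm ▸ hrest)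
  rw [← hsum, map_zero, hterm] at hfin
  exact hg0 hfin.symm

theorem ar_val_natAbs (P : ValuationSubring Kb) (n : ℤ) :
    P.valuation ((n.natAbs : ℕ) : Kb) = P.valuation (n : Kb) := by
  rcases Int.natAbs_eq n with h | h
  · have h6 : (n : Kb) = (((n.natAbs : ℕ) : ℤ) : Kb) := congrArg (Int.cast : ℤ → Kb) h
    rw [Int.cast_natCast] at h6
    rw [← h6]
  · have h6 : (n : Kb) = ((-((n.natAbs : ℕ) : ℤ) : ℤ) : Kb) := congrArg (Int.cast : ℤ → Kb) h
    rw [Int.cast_neg, Int.cast_natCast] at h6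
    rw [h6, Valuation.map_neg]

/-- Integer polynomials take values in `P` at elements of `P`. -/
theorem ar_aeval_mem (P : ValuationSubring Kb) (q : ℤ[X]) {x : Kb} (hx : x ∈ P) :
    aeval x q ∈ P := by
  rw [aeval_eq_sum_range]
  refine sum_mem fun i _ => ?_
  rw [zsmul_eq_mul]
  exact P.mul_mem _ _ (ar_intCast_mem P _) (pow_mem hx i)

/-- **DVD**: every nonzero element divides a power of `p` in `P`. -/
theorem dvdProp (hp : p.Prime) (hP : P.LiesOverPrime p) : DvdProp p P := by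
  intro x hx
  by_cases hxP : x ∈ P
  swap
  · refine ⟨0, ?_⟩
    rw [pow_zero, one_div]
    exact (P.mem_or_inv_mem x).resolve_left hxP
  obtain ⟨q, hq0, hq, -⟩ := ar_exists_primitive hp x
  obtain ⟨q', hqq', hnd⟩ := exists_eq_pow_rootMultiplicity_mul_and_not_dvd q hq0 0
  rw [C_0, sub_zero] at hqq' hnd
  have h1 : aeval x q' = 0 := by
    have h2 := hq
    rw [hqq', map_mul, map_pow, aeval_X] at h2
    exact (mul_eq_zero.1 h2).resolve_left (pow_ne_zero _ hx)
  have ha0 : q'.coeff 0 ≠ 0 := fun h => hnd (X_dvd_iff.2 h)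
  have h3 : aeval x q'.divX * x + (q'.coeff 0 : Kb) = 0 := by
    have h4 := congrArg (aeval x) (divX_mul_X_add q')
    rw [map_add, map_mul, aeval_X, aeval_C, h1] at h4
    simpa using h4
  have h5 : P.valuation (q'.coeff 0 : Kb) ≤ P.valuation x := by
    have h6 : (q'.coeff 0 : Kb) = -(aeval x q'.divX) * x := by linear_combination h3
    rw [h6, map_mul, Valuation.map_neg]
    calc P.valuation (aeval x q'.divX) * P.valuation x ≤ 1 * P.valuation x :=
          mul_le_mul' ((ValuationSubring.valuation_le_one_iff P _).2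
            (ar_aeval_mem P _ hxP)) le_rfl
      _ = _ := one_mul _
  have hna : (q'.coeff 0).natAbs ≠ 0 := Int.natAbs_ne_zero.2 ha0
  obtain ⟨e, n', hn', he⟩ := Nat.exists_eq_pow_mul_and_not_dvd hna p hp.ne_one
  refine ⟨e, ?_⟩
  have h7 : P.valuation (q'.coeff 0 : Kb) = P.valuation (p : Kb) ^ e := by
    rw [← ar_val_natAbs, he]
    push_cast
    rw [map_mul, map_pow]
    have h8 : P.valuation ((n' : ℕ) : Kb) = 1 := by
      have := ar_val_int_eq_one (P := P) hp hP (n := (n' : ℤ)) (by exact_mod_cast hn')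
      simpa using this
    rw [h8, mul_one]
  rw [← ValuationSubring.valuation_le_one_iff, map_div₀, map_pow, ← h7]
  exact div_le_one_of_le₀ h5 zero_le

/-- **INT**: `P` is completely integrally closed. -/
theorem intProp (hp : p.Prime) (hP : P.LiesOverPrime p) : IntProp p P := by
  rintro y ⟨N, hN⟩
  by_contra hy
  have hy0 : y ≠ 0 := fun h => hy (h ▸ P.zero_mem)
  have hvy : 1 < P.valuation y := by
    rw [← not_le, ValuationSubring.valuation_le_one_iff]
    exact hy
  have ht : y⁻¹ ∈ P.nonunits := by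
    rw [ValuationSubring.mem_nonunits_iff, map_inv₀]
    exact inv_lt_one_of_one_lt₀ hvy
  obtain ⟨m, hm⟩ := archProp hp hP y⁻¹ ht
  have hvp0 : P.valuation (p : Kb) ≠ 0 := (Valuation.ne_zero_iff _).2 (ar_p_ne_zero hp)
  have hvy0 : P.valuation y ≠ 0 := (Valuation.ne_zero_iff _).2 hy0
  -- `1 ≤ v(p) v(y)^m`
  have h1 : 1 ≤ P.valuation (p : Kb) * P.valuation y ^ m := by
    rw [← ValuationSubring.valuation_le_one_iff, map_div₀, map_pow, map_inv₀, inv_pow] at hm
    rw [div_le_iff₀ (zero_lt_iff.2 hvp0), one_mul] at hm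
    have h2 := mul_le_mul_left hm (P.valuation y ^ m)
    rwa [inv_mul_cancel₀ (pow_ne_zero _ hvy0)] at h2
  have h3 := hN (m * (N + 1))
  rw [← ValuationSubring.valuation_le_one_iff, map_mul, map_pow, map_pow, pow_mul] at h3
  have h4 : 1 ≤ (P.valuation (p : Kb) * P.valuation y ^ m) ^ (N + 1) := one_le_pow₀ h1
  rw [mul_pow, pow_succ (P.valuation (p : Kb)) N] at h4
  have h5 : P.valuation (p : Kb) ^ N * P.valuation (p : Kb) * (P.valuation y ^ m) ^ (N + 1)
      = (P.valuation (p : Kb) ^ N * (P.valuation y ^ m) ^ (N + 1)) * P.valuation (p : Kb) := by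
    rw [mul_assoc, mul_comm (P.valuation (p : Kb)), ← mul_assoc]
  rw [h5] at h4
  have h6 : (P.valuation (p : Kb) ^ N * (P.valuation y ^ m) ^ (N + 1)) * P.valuation (p : Kb)
      ≤ 1 * P.valuation (p : Kb) := mul_le_mul' h3 le_rfl
  rw [one_mul] at h6
  exact absurd (lt_of_le_of_lt (le_trans h4 h6) (ar_val_p_lt hP)) (lt_irrefl _)

/-- **CYC**: `(ζ - 1) / p` is not integral at `P` (`p` odd). -/
theorem cycProp (hp : p.Prime) (hp2 : p ≠ 2) (hP : P.LiesOverPrime p) : CycProp p P := by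
  classical
  intro ℓ hℓ ζ hζ hζ1 hy
  have hx0 : ζ - 1 ≠ 0 := sub_ne_zero.2 hζ1
  have hvp0 : P.valuation (p : Kb) ≠ 0 := (Valuation.ne_zero_iff _).2 (ar_p_ne_zero hp)
  have hvp : P.valuation (p : Kb) < 1 := ar_val_p_lt hP
  have hvx : P.valuation (ζ - 1) ≤ P.valuation (p : Kb) := by
    rw [← ValuationSubring.valuation_le_one_iff, map_div₀] at hy
    rwa [div_le_iff₀ (zero_lt_iff.2 hvp0), one_mul] at hy
  by_cases hℓp : ℓ = p
  swap
  · -- `ζ - 1` is a nonunit, so `ζ = 1`
    have h1 : ζ - 1 ∈ P.nonunits :=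
      (ValuationSubring.mem_nonunits_iff P).2 (lt_of_le_of_lt hvx hvp)
    have h2 : ¬ p ∣ ℓ := fun h => hℓp ((Nat.prime_dvd_prime_iff_eq hp hℓ).1 h).symm
    exact hζ1 (eq_one_of_sub_one_mem_nonunits P hℓ.ne_zero hζ
      (natCast_not_mem_nonunits P hp hP h2) h1)
  subst hℓp
  set x := ζ - 1 with hx
  have hvx0 : P.valuation x ≠ 0 := (Valuation.ne_zero_iff _).2 hx0
  have hvx1 : P.valuation x < 1 := lt_of_le_of_lt hvx hvp
  have hpow : (x + 1) ^ ℓ = 1 := by rw [hx, sub_add_cancel, hζ]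
  rw [add_pow, Finset.sum_range_succ'] at hpow
  simp only [one_pow, mul_one, pow_zero, Nat.choose_zero_right, Nat.cast_one] at hpow
  have hsum : ∑ k ∈ Finset.range ℓ, x ^ (k + 1) * ((ℓ.choose (k + 1) : ℕ) : Kb) = 0 := by
    linear_combination hpow
  have hmem : 0 ∈ Finset.range ℓ := Finset.mem_range.2 hℓ.pos
  rw [← Finset.add_sum_erase _ _ hmem] at hsum
  have hterm : P.valuation (x ^ (0 + 1) * ((ℓ.choose (0 + 1) : ℕ) : Kb))
      = P.valuation x * P.valuation (ℓ : Kb) := by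
    rw [zero_add, pow_one, Nat.choose_one_right, map_mul]
  have hg0 : P.valuation x * P.valuation (ℓ : Kb) ≠ 0 := mul_ne_zero hvx0 hvp0
  have hrest : P.valuation (∑ k ∈ (Finset.range ℓ).erase 0,
      x ^ (k + 1) * ((ℓ.choose (k + 1) : ℕ) : Kb)) < P.valuation x * P.valuation (ℓ : Kb) := by
    apply Valuation.map_sum_lt _ hg0
    intro k hk
    obtain ⟨hk0, hkr⟩ := Finset.mem_erase.1 hk
    have hkℓ : k < ℓ := Finset.mem_range.1 hkr
    have hk1 : 1 ≤ k := Nat.one_le_iff_ne_zero.2 hk0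
    rw [map_mul, map_pow]
    by_cases hlast : k + 1 = ℓ
    · -- the last term `x ^ ℓ`
      rw [hlast, Nat.choose_self, Nat.cast_one, map_one, mul_one]
      have hℓ3 : 3 ≤ ℓ := by
        have := hp.two_le
        omega
      have h1 : P.valuation x ^ ℓ = P.valuation x * P.valuation x ^ (ℓ - 1) := by
        rw [← pow_succ', Nat.sub_add_cancel hℓ.one_le]
      rw [h1]
      have h2 : P.valuation x ^ (ℓ - 1) < P.valuation (ℓ : Kb) := by
        calc P.valuation x ^ (ℓ - 1) ≤ P.valuation x ^ 2 :=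
              pow_le_pow_of_le_one zero_le (le_of_lt hvx1) (by omega)
          _ = P.valuation x * P.valuation x := sq _
          _ ≤ P.valuation (ℓ : Kb) * P.valuation x := mul_le_mul' hvx le_rfl
          _ < P.valuation (ℓ : Kb) * 1 := mul_lt_mul_of_pos_left hvx1 (zero_lt_iff.2 hvp0)
          _ = P.valuation (ℓ : Kb) := mul_one _
      exact mul_lt_mul_of_pos_left h2 (zero_lt_iff.2 hvx0)
    · have hdvd : ℓ ∣ ℓ.choose (k + 1) := hp.dvd_choose_self (by omega) (by omega)
      have h1 : P.valuation (((ℓ.choose (k + 1) : ℕ)) : Kb) ≤ P.valuation (ℓ : Kb) := by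
        have := ar_val_int_le (p := ℓ) P (n := ((ℓ.choose (k + 1) : ℕ) : ℤ))
          (by exact_mod_cast hdvd)
        simpa using this
      have h2 : P.valuation x ^ (k + 1) < P.valuation x := by
        have := pow_lt_pow_right_of_lt_one₀ (zero_lt_iff.2 hvx0) hvx1 (show 1 < k + 1 by omega)
        simpa using this
      calc P.valuation x ^ (k + 1) * P.valuation (((ℓ.choose (k + 1) : ℕ)) : Kb)
          ≤ P.valuation x ^ (k + 1) * P.valuation (ℓ : Kb) := mul_le_mul' le_rfl h1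
        _ < P.valuation x * P.valuation (ℓ : Kb) :=
            mul_lt_mul_of_pos_right h2 (zero_lt_iff.2 hvp0)
  have hfin := Valuation.map_add_eq_of_lt_left P.valuation (hterm ▸ hrest)
  rw [hsum, map_zero, hterm] at hfin
  exact hg0 hfin.symm

end Fermat.Agent.FFL
end MergeWrap_Lib_FFL_Arith
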