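import Mathlib.RingTheory.RootsOfUnity.AlgebraicallyClosed
import Fermat.Agent.MU.Lib.FFL.Defs

section MergeWrap_Lib_FFL_Core -- from Lib/FFL/Core.lean

set_option autoImplicit false

namespace Fermat.Agent.FFL

local notation "Kb" => AlgebraicClosure ℚ

namespace CoreAux

variable {ℓ : ℕ}

/-- The coefficients of `zⁿ`, `z = ([1] - [0]) / p`, in the group algebra of `ℤ/ℓ`. -/
noncomputable def coreU (p ℓ : ℕ) : ℕ → ZMod ℓ → Kb
  | 0 => fun c => if c = 0 then 1 else 0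
  | n + 1 => fun c => (coreU p ℓ n (c - 1) - coreU p ℓ n c) / (p : Kb)

/-- The pairing between coefficient functions and functions. -/
noncomputable def corePair [NeZero ℓ] (u f : ZMod ℓ → Kb) : Kb := ∑ c, u c * f c

/-- The (scaled) difference operator, adjoint to multiplication by `z`. -/
noncomputable def coreD (p : ℕ) (f : ZMod ℓ → Kb) : ZMod ℓ → Kb :=
  fun c => (f (c + 1) - f c) / (p : Kb)

theorem corePair_coreU_succ [NeZero ℓ] (p : ℕ) (n : ℕ) (f : ZMod ℓ → Kb) :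
    corePair (coreU p ℓ (n + 1)) f = corePair (coreU p ℓ n) (coreD p f) := by
  unfold corePair coreD
  have h1 : ∑ c : ZMod ℓ, coreU p ℓ n (c - 1) * f c
      = ∑ c : ZMod ℓ, coreU p ℓ n c * f (c + 1) := by
    refine Fintype.sum_equiv (Equiv.subRight (1 : ZMod ℓ)) _ _ (fun c => ?_)
    simp [Equiv.subRight]
  have h2 : ∀ c : ZMod ℓ, coreU p ℓ (n + 1) c * f c
      = (coreU p ℓ n (c - 1) * f c - coreU p ℓ n c * f c) / (p : Kb) := by
    intro c
    simp only [coreU]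
    ring
  have h3 : ∀ c : ZMod ℓ, coreU p ℓ n c * ((f (c + 1) - f c) / (p : Kb))
      = (coreU p ℓ n c * f (c + 1) - coreU p ℓ n c * f c) / (p : Kb) := by
    intro c
    ring
  simp only [h2, h3]
  rw [← Finset.sum_div, ← Finset.sum_div, Finset.sum_sub_distrib, Finset.sum_sub_distrib, h1]

theorem corePair_coreU_zero [NeZero ℓ] (p : ℕ) (f : ZMod ℓ → Kb) :
    corePair (coreU p ℓ 0) f = f 0 := by
  unfold corePair
  simp [coreU]

theorem corePair_coreU_one [NeZero ℓ] (p : ℕ) (f : ZMod ℓ → Kb) :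
    corePair (coreU p ℓ 1) f = (f 1 - f 0) / (p : Kb) := by
  rw [corePair_coreU_succ, corePair_coreU_zero]
  simp [coreD]

/-- Key induction: the pairing of `u_n`, `n ≥ 1`, with an element of `A` is in `P`. -/
theorem corePair_mem [NeZero ℓ] (p : ℕ) (P : ValuationSubring Kb) (A : Set (ZMod ℓ → Kb))
    (hA : ComulClosed A) (h1 : ∀ f ∈ A, (f 1 - f 0) / (p : Kb) ∈ P) (n : ℕ) :
    ∀ f ∈ A, corePair (coreU p ℓ (n + 1)) f ∈ P := by
  induction n with
  | zero =>
    intro f hf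
    rw [zero_add, corePair_coreU_one]
    exact h1 f hf
  | succ n ih =>
    intro f hf
    obtain ⟨m, g, h, hg, hh, hgh⟩ := hA f hf
    rw [corePair_coreU_succ]
    have key : corePair (coreU p ℓ (n + 1)) (coreD p f)
        = ∑ i, corePair (coreU p ℓ (n + 1)) (g i) * ((h i 1 - h i 0) / (p : Kb)) := by
      unfold corePair coreD
      have : ∀ c : ZMod ℓ, coreU p ℓ (n + 1) c * ((f (c + 1) - f c) / (p : Kb))
          = ∑ i, coreU p ℓ (n + 1) c * g i c * ((h i 1 - h i 0) / (p : Kb)) := by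
        intro c
        have e1 := hgh c 1
        have e0 := hgh c 0
        rw [add_zero] at e0
        rw [e1, e0, ← Finset.sum_sub_distrib, Finset.sum_div, Finset.mul_sum]
        refine Finset.sum_congr rfl (fun i _ => ?_)
        ring
      simp only [this]
      rw [Finset.sum_comm]
      refine Finset.sum_congr rfl (fun i _ => ?_)
      rw [Finset.sum_mul]
    rw [key]
    exact P.toSubring.sum_mem (fun i _ => P.mul_mem _ _ (ih (g i) (hg i)) (h1 (h i) (hh i)))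

/-- The character `c ↦ ζ ^ c`. -/
noncomputable def coreChi (ℓ : ℕ) (ζ : Kb) : ZMod ℓ → Kb := fun c => ζ ^ c.val

theorem coreChi_add_one [NeZero ℓ] (hℓ : 1 < ℓ) (ζ : Kb) (hζ : ζ ^ ℓ = 1) (c : ZMod ℓ) :
    coreChi ℓ ζ (c + 1) = coreChi ℓ ζ c * ζ := by
  unfold coreChi
  have : Fact (1 < ℓ) := ⟨hℓ⟩
  rw [ZMod.val_add, ZMod.val_one, ← pow_eq_pow_mod _ hζ, pow_succ]

theorem coreD_coreChi [NeZero ℓ] (hℓ : 1 < ℓ) (p : ℕ) (ζ : Kb) (hζ : ζ ^ ℓ = 1) :
    coreD p (coreChi ℓ ζ) = fun c => coreChi ℓ ζ c * ((ζ - 1) / (p : Kb)) := by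
  funext c
  unfold coreD
  rw [coreChi_add_one hℓ ζ hζ]
  ring

theorem corePair_mul_const [NeZero ℓ] (u f : ZMod ℓ → Kb) (a : Kb) :
    corePair u (fun c => f c * a) = corePair u f * a := by
  unfold corePair
  rw [Finset.sum_mul]
  refine Finset.sum_congr rfl (fun c _ => ?_)
  ring

theorem corePair_coreChi [NeZero ℓ] (hℓ : 1 < ℓ) (p : ℕ) (ζ : Kb) (hζ : ζ ^ ℓ = 1) (n : ℕ) :
    corePair (coreU p ℓ n) (coreChi ℓ ζ) = ((ζ - 1) / (p : Kb)) ^ n := by
  induction n with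
  | zero =>
    rw [corePair_coreU_zero, pow_zero]
    simp [coreChi]
  | succ n ih =>
    rw [corePair_coreU_succ, coreD_coreChi hℓ p ζ hζ, corePair_mul_const, ih, pow_succ]

theorem mem_of_pow_eq_one (P : ValuationSubring Kb) (ζ : Kb) {m : ℕ} (hm : 0 < m)
    (hζ : ζ ^ m = 1) : ζ ∈ P := by
  rcases P.mem_or_inv_mem ζ with h | h
  · exact h
  · have hζ0 : ζ ≠ 0 := by
      rintro rfl
      rw [zero_pow hm.ne'] at hζ
      exact zero_ne_one hζ
    have : ζ = ζ⁻¹ ^ (m - 1) := by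
      have h2 : ζ ^ (m - 1) * ζ = 1 := by
        rw [← pow_succ, Nat.sub_add_cancel hm, hζ]
      rw [inv_pow]
      exact eq_inv_of_mul_eq_one_right h2
    rw [this]
    exact pow_mem h _

end CoreAux

open CoreAux in
/-- **FFL-CORE**: `CoreProp` follows from `IntProp` and `CycProp`. -/
theorem coreProp_of_int_cyc (p : ℕ) (P : ValuationSubring Kb) (hint : IntProp p P)
    (hcyc : CycProp p P) : CoreProp p P := by
  intro ℓ hℓ A hA ⟨N, hN⟩ h1
  have : NeZero ℓ := ⟨hℓ.out.ne_zero⟩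
  have hℓ1 : 1 < ℓ := hℓ.out.one_lt
  -- a primitive `ℓ`-th root of unity
  obtain ⟨ζ, hζ⟩ := HasEnoughRootsOfUnity.exists_primitiveRoot Kb ℓ
  have hζℓ : ζ ^ ℓ = 1 := hζ.pow_eq_one
  have hζ1 : ζ ≠ 1 := hζ.ne_one hℓ1
  have hζP : ζ ∈ P := mem_of_pow_eq_one P ζ hℓ.out.pos hζℓ
  refine hcyc ℓ hℓ.out ζ hζℓ hζ1 (hint _ ⟨N, fun n => ?_⟩)
  rcases Nat.eq_zero_or_pos n with rfl | hn
  · rw [pow_zero, mul_one]
    exact pow_mem (natCast_mem P p) N
  · obtain ⟨n, rfl⟩ : ∃ k, n = k + 1 := ⟨n - 1, (Nat.sub_add_cancel hn).symm⟩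
    -- the coefficients of `p ^ N * u_{n+1}` are in `P`
    have hcoef : ∀ c : ZMod ℓ, (p : Kb) ^ N * coreU p ℓ (n + 1) c ∈ P := by
      intro c
      have := corePair_mem p P A hA h1 n _ (hN c)
      unfold corePair at this
      simpa [mul_comm] using this
    rw [← corePair_coreChi hℓ1 p ζ hζℓ (n + 1)]
    unfold corePair
    rw [Finset.mul_sum]
    refine P.toSubring.sum_mem (fun c _ => ?_)
    rw [← mul_assoc]
    exact P.mul_mem _ _ (hcoef c) (pow_mem hζP _)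

end Fermat.Agent.FFL
end MergeWrap_Lib_FFL_Core
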