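import Fermat.Agent.MU.Lib.FFL.Defs

section MergeWrap_Lib_FFL_MainAux -- from Lib/FFL/MainAux.lean

set_option autoImplicit false

namespace Fermat.Agent.FFL

local notation "Kb" => AlgebraicClosure ℚ
local notation "GK" => (AlgebraicClosure ℚ ≃ₐ[ℚ] AlgebraicClosure ℚ)

/-- In a finite abelian group, an element outside a subgroup `V₁` has a multiple whose class
modulo `V₁` has prime order. -/
theorem ma_exists_prime_order {W : Type*} [AddCommGroup W] [Finite W] (V₁ : AddSubgroup W)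
    {x : W} (hx : x ∉ V₁) :
    ∃ (m ℓ : ℕ), ℓ.Prime ∧ ℓ • (m • x) ∈ V₁ ∧ ∀ k : ℕ, 0 < k → k < ℓ → k • (m • x) ∉ V₁ := by
  classical
  have hex : ∃ n : ℕ, 0 < n ∧ n • x ∈ V₁ := by
    refine ⟨Nat.card W, Nat.card_pos, ?_⟩
    rw [card_nsmul_eq_zero']
    exact V₁.zero_mem
  let n₀ := Nat.find hex
  have hn₀ : 0 < n₀ ∧ n₀ • x ∈ V₁ := Nat.find_spec hex
  have hmin : ∀ k, 0 < k → k < n₀ → k • x ∉ V₁ := fun k hk hkn h =>
    Nat.find_min hex hkn ⟨hk, h⟩
  have hn1 : n₀ ≠ 1 := by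
    intro h
    have := hn₀.2
    rw [h, one_nsmul] at this
    exact hx this
  have hℓ : n₀.minFac.Prime := Nat.minFac_prime hn1
  have hdvd : n₀.minFac ∣ n₀ := Nat.minFac_dvd n₀
  refine ⟨n₀ / n₀.minFac, n₀.minFac, hℓ, ?_, ?_⟩
  · rw [← mul_nsmul', Nat.mul_div_cancel' hdvd]
    exact hn₀.2
  · intro k hk hkℓ
    rw [← mul_nsmul']
    have hm0 : 0 < n₀ / n₀.minFac := Nat.div_pos (Nat.le_of_dvd hn₀.1 hdvd) hℓ.pos
    apply hmin _ (Nat.mul_pos hk hm0)
    calc k * (n₀ / n₀.minFac) < n₀.minFac * (n₀ / n₀.minFac) :=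
          Nat.mul_lt_mul_of_pos_right hkℓ hm0
      _ = n₀ := Nat.mul_div_cancel' hdvd

open scoped Classical in
/-- **Abstract assembly of MAIN (⊆)**.  `V₁` a subgroup of the finite group `W`, `B1` a
comultiplication-closed set of `V₁`-invariant functions with inertia-fixed values, containing
`p ^ N` times the indicator functions of the cosets of `V₁`.  Then every subgroup `R` of points
reducing to the identity (with respect to `B1`) is contained in `V₁`. -/
theorem ma_le_of_core {p : ℕ} {P : ValuationSubring Kb} (hcore : CoreProp p P)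
    (hunr : UnrProp p P) {W : Type*} [AddCommGroup W] [Finite W] (V₁ : AddSubgroup W)
    (B1 : Set (W → Kb)) (hinv : ∀ f ∈ B1, TransInv (V₁ : Set W) f) (hcomul : ComulClosed B1)
    (hfull : ∃ N : ℕ, ∀ w₀ : W, (fun w : W => if w - w₀ ∈ V₁ then (p : Kb) ^ N else 0) ∈ B1)
    (hfix : ∀ f ∈ B1, ∀ w : W, ∀ σ ∈ P.inertiaSubgroupIn ℚ, σ (f w) = f w)
    (R : AddSubgroup W) (hR : ∀ x ∈ R, ∀ f ∈ B1, f x - f 0 ∈ P.nonunits) : R ≤ V₁ := by
  intro x hxR
  by_contra hx
  obtain ⟨m, ℓ, hℓ, hℓx, hmin⟩ := ma_exists_prime_order V₁ hx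
  have : Fact ℓ.Prime := ⟨hℓ⟩
  set x' := m • x with hx'
  have hx'R : x' ∈ R := R.nsmul_mem hxR m
  -- multiples of `ℓ • x'`
  have hmul : ∀ q : ℕ, q • (ℓ • x') ∈ V₁ := fun q => V₁.nsmul_mem hℓx q
  -- the family `A`
  let A : Set (ZMod ℓ → Kb) := {F | ∃ f ∈ B1, ∀ c : ZMod ℓ, F c = f (c.val • x')}
  have hval_add : ∀ (f : W → Kb), TransInv (V₁ : Set W) f → ∀ c c' : ZMod ℓ,
      f ((c + c').val • x') = f (c.val • x' + c'.val • x') := by
    intro f hf c c'
    obtain ⟨q, h1⟩ : ∃ q : ℕ, c.val + c'.val = (c + c').val + ℓ * q := by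
      refine ⟨(c.val + c'.val) / ℓ, ?_⟩
      rw [ZMod.val_add]
      exact (Nat.mod_add_div _ _).symm
    have h2 : c.val • x' + c'.val • x' = (c + c').val • x' + q • (ℓ • x') := by
      rw [← add_nsmul, h1, add_nsmul, mul_comm, mul_nsmul']
    rw [h2]
    exact (hf _ _ (hmul _)).symm
  have hA : ComulClosed A := by
    rintro F ⟨f, hf, hF⟩
    obtain ⟨n, g, h, hg, hh, hgh⟩ := hcomul f hf
    refine ⟨n, fun i c => g i (c.val • x'), fun i c => h i (c.val • x'),
      fun i => ⟨g i, hg i, fun _ => rfl⟩, fun i => ⟨h i, hh i, fun _ => rfl⟩, fun c c' => ?_⟩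
    rw [hF, hval_add f (hinv f hf), hgh]
  have hiff : ∀ c c' : ZMod ℓ, (c'.val • x' - c.val • x' ∈ V₁) ↔ c' = c := by
    intro c c'
    constructor
    · intro h
      by_contra hne
      have hvne : c'.val ≠ c.val := fun h' => hne (ZMod.val_injective ℓ h')
      rcases lt_or_gt_of_ne hvne with hlt | hlt
      · -- `c'.val < c.val`
        have h3 : (c.val - c'.val) • x' ∈ V₁ := by
          have : (c.val - c'.val) • x' = -(c'.val • x' - c.val • x') := by
            rw [neg_sub, sub_nsmul _ (le_of_lt hlt)]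
            abel
          rw [this]
          exact V₁.neg_mem h
        exact hmin _ (Nat.sub_pos_of_lt hlt)
          (lt_of_le_of_lt (Nat.sub_le _ _) (ZMod.val_lt c)) h3
      · have h3 : (c'.val - c.val) • x' ∈ V₁ := by
          have : (c'.val - c.val) • x' = c'.val • x' - c.val • x' := by
            rw [sub_nsmul _ (le_of_lt hlt)]
            abel
          rw [this]
          exact h
        exact hmin _ (Nat.sub_pos_of_lt hlt)
          (lt_of_le_of_lt (Nat.sub_le _ _) (ZMod.val_lt c')) h3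
    · rintro rfl
      rw [sub_self]
      exact V₁.zero_mem
  have hAfull : ∃ N : ℕ, ∀ c : ZMod ℓ,
      (fun c' : ZMod ℓ => if c' = c then (p : Kb) ^ N else 0) ∈ A := by
    obtain ⟨N, hN⟩ := hfull
    refine ⟨N, fun c => ⟨_, hN (c.val • x'), fun c' => ?_⟩⟩
    simp only [hiff c c']
  have hAconn : ∀ F ∈ A, (F 1 - F 0) / (p : Kb) ∈ P := by
    rintro F ⟨f, hf, hF⟩
    rw [hF, hF, ZMod.val_one, ZMod.val_zero, one_nsmul, zero_nsmul]
    apply hunr _ (hR x' hx'R f hf)
    intro σ hσ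
    rw [map_sub, hfix f hf _ σ hσ, hfix f hf _ σ hσ]
  exact hcore ℓ A hA hAfull hAconn

end Fermat.Agent.FFL
end MergeWrap_Lib_FFL_MainAux
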