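import Fermat.Agent.MU.Lib.FFL.Defs
import Fermat.Agent.MU.E.Desc.FlatAsmK
import Fermat.Agent.Lib.KFin.Inertia

section MergeWrap_Lib_FFL_Et -- from Lib/FFL/Et.lean

set_option autoImplicit false

namespace Fermat.Agent.FFL

open Fermat.Agent.FlatMod GaloisRep

local notation "Kb" => AlgebraicClosure ℚ
local notation "GK" => (AlgebraicClosure ℚ ≃ₐ[ℚ] AlgebraicClosure ℚ)

/-- the augmentation subgroup on a set of inertia-fixed points is trivial. -/
theorem augOn_eq_bot_of_fixed (P : ValuationSubring Kb) {W : Type*} [AddCommGroup W]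
    (act : GK → W → W) (N : Set W)
    (h : ∀ σ ∈ P.inertiaSubgroupIn ℚ, ∀ x ∈ N, act σ x = x) : augOn P act N = ⊥ := by
  rw [augOn, AddSubgroup.closure_eq_bot_iff]
  rintro w ⟨τ, hτ, v, hv, rfl⟩
  rw [Set.mem_singleton_iff, h τ hτ v hv, sub_self]

/-- generators of the augmentation subgroup. -/
theorem act_sub_mem_augI (P : ValuationSubring Kb) {W : Type*} [AddCommGroup W]
    (act : GK → W → W) {σ : GK} (hσ : σ ∈ P.inertiaSubgroupIn ℚ) (w : W) :
    act σ w - w ∈ augI P act :=
  AddSubgroup.subset_closure ⟨σ, hσ, w, Set.mem_univ _, rfl⟩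

/-- **FFL-ET**: if `M` is flat, and inertia acts trivially on the Galois-stable subgroup `X`
and on `M ⧸ X`, then inertia acts trivially on `M`. -/
theorem et_of_exact {p : ℕ} {P : ValuationSubring Kb} (hex : ExactProp p P) {M : Type}
    [AddCommGroup M] {act : GK → M → M} (hM : IsFlatGaloisModule p M act)
    (X : AddSubgroup M) (hX : ∀ σ, ∀ x ∈ X, act σ x ∈ X)
    (hIX : ∀ σ ∈ P.inertiaSubgroupIn ℚ, ∀ x ∈ X, act σ x = x)
    (hIQ : ∀ σ ∈ P.inertiaSubgroupIn ℚ, ∀ m : M, act σ m - m ∈ X) :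
    ∀ σ ∈ P.inertiaSubgroupIn ℚ, ∀ m : M, act σ m = m := by
  intro σ hσ m
  have h2 := hex M act hM X hX (act σ m - m) (hIQ σ hσ m) (act_sub_mem_augI P act hσ m)
  rw [augOn_eq_bot_of_fixed P act (X : Set M) hIX, AddSubgroup.mem_bot] at h2
  exact sub_eq_zero.mp h2

end Fermat.Agent.FFL
end MergeWrap_Lib_FFL_Et

section MergeWrap_Lib_FFL_Free -- from Lib/FFL/Free.lean

set_option autoImplicit false

namespace Fermat.Agent.FFL

open Fermat.Agent.FlatMod GaloisRep IsLocalRing
open scoped Pointwise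

local notation "Kb" => AlgebraicClosure ℚ
local notation "GK" => (AlgebraicClosure ℚ ≃ₐ[ℚ] AlgebraicClosure ℚ)

variable {A : Type} [CommRing A] [IsLocalRing A]

/-- the kernel of the map to the inertia coinvariants: the `A`-span of the `ρ σ v - v`, `σ` in
the inertia group of `P`. -/
def coinvKer (P : ValuationSubring Kb) (ρ : GaloisRepAdic A) : Submodule A ρ.V :=
  Submodule.span A {w | ∃ σ ∈ P.inertiaSubgroupIn ℚ, ∃ v : ρ.V, w = ρ.ρ σ v - v}

theorem sub_mem_coinvKer (P : ValuationSubring Kb) (ρ : GaloisRepAdic A) {σ : GK}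
    (hσ : σ ∈ P.inertiaSubgroupIn ℚ) (v : ρ.V) : ρ.ρ σ v - v ∈ coinvKer P ρ :=
  Submodule.subset_span ⟨σ, hσ, v, rfl⟩

/-- `coinvKer` is the augmentation subgroup of inertia. -/
theorem coinvKer_toAddSubgroup (P : ValuationSubring Kb) (ρ : GaloisRepAdic A) :
    (coinvKer P ρ).toAddSubgroup = augI P (fun σ v => ρ.ρ σ v) := by
  apply le_antisymm
  · intro x hx
    have hx' : x ∈ coinvKer P ρ := hx
    have hsmul : ∀ (a : A), ∀ y ∈ augI P (fun σ (v : ρ.V) => ρ.ρ σ v),
        a • y ∈ augI P (fun σ (v : ρ.V) => ρ.ρ σ v) := by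
      intro a y hy
      refine AddSubgroup.closure_induction (p := fun y _ =>
        a • y ∈ augI P (fun σ (v : ρ.V) => ρ.ρ σ v)) ?_ ?_ ?_ ?_ hy
      · rintro w ⟨σ, hσ, v, -, rfl⟩
        have : a • (ρ.ρ σ v - v) = ρ.ρ σ (a • v) - a • v := by
          rw [smul_sub, map_smul]
        rw [this]
        exact act_sub_mem_augI P _ hσ (a • v)
      · rw [smul_zero]
        exact AddSubgroup.zero_mem _
      · intro y z _ _ hy hz
        rw [smul_add]
        exact AddSubgroup.add_mem _ hy hz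
      · intro y _ hy
        rw [smul_neg]
        exact AddSubgroup.neg_mem _ hy
    refine Submodule.span_induction (p := fun x _ =>
      x ∈ augI P (fun σ (v : ρ.V) => ρ.ρ σ v)) ?_ ?_ ?_ ?_ hx'
    · rintro w ⟨σ, hσ, v, rfl⟩
      exact act_sub_mem_augI P _ hσ v
    · exact AddSubgroup.zero_mem _
    · intro y z _ _ hy hz
      exact AddSubgroup.add_mem _ hy hz
    · intro a y _ hy
      exact hsmul a y hy
  · rw [augI, augOn, AddSubgroup.closure_le]
    rintro w ⟨σ, hσ, v, -, rfl⟩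
    exact sub_mem_coinvKer P ρ hσ v

/-- a flat representation over a finite local ring is a flat Galois module. -/
theorem isFlatGaloisModule_of_isFlatAt [Finite A] {p : ℕ} (ρ : GaloisRepAdic A)
    (hfl : ρ.IsFlatAt p) : IsFlatGaloisModule p ρ.V (fun σ v => ρ.ρ σ v) := by
  have h0 : ((⊥ : Ideal A) • (⊤ : Submodule A ρ.V)) = ⊥ := Submodule.bot_smul ⊤
  have hfin : Finite (A ⧸ (⊥ : Ideal A)) :=
    Finite.of_surjective (Ideal.Quotient.mk ⊥) Ideal.Quotient.mk_surjective
  have h1 := ((isFlatAt_iff ρ p).mp hfl).2 ⊥ hfin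
  refine h1.of_equiv (Submodule.quotEquivOfEqBot _ h0).toAddEquiv ?_
  intro σ x
  obtain ⟨v, rfl⟩ := Submodule.Quotient.mk_surjective _ x
  rfl

/-- **FFL-FREE (a)**: the inertia coinvariants of a flat representation over a finite local
ring are flat: `J V ∩ U ≤ J U` for every ideal `J`. -/
theorem coinv_flat [Finite A] {p : ℕ} {P : ValuationSubring Kb} (hex : ExactProp p P)
    (ρ : GaloisRepAdic A) (hfl : ρ.IsFlatAt p) (J : Ideal A) :
    (J • (⊤ : Submodule A ρ.V)) ⊓ coinvKer P ρ ≤ J • coinvKer P ρ := by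
  intro x hx
  obtain ⟨hxJ, hxU⟩ := hx
  have hV := isFlatGaloisModule_of_isFlatAt ρ hfl
  have hN : ∀ σ : GK, ∀ n ∈ (J • (⊤ : Submodule A ρ.V)).toAddSubgroup,
      (fun σ (v : ρ.V) => ρ.ρ σ v) σ n ∈ (J • (⊤ : Submodule A ρ.V)).toAddSubgroup := by
    intro σ n hn
    have hn' : n ∈ J • (⊤ : Submodule A ρ.V) := hn
    show ρ.ρ σ n ∈ J • (⊤ : Submodule A ρ.V)
    refine Submodule.smul_induction_on hn' ?_ ?_
    · intro j hj v _
      rw [map_smul]
      exact Submodule.smul_mem_smul hj Submodule.mem_top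
    · intro y z hy hz
      rw [map_add]
      exact Submodule.add_mem _ hy hz
  have hxaug : x ∈ augI P (fun σ (v : ρ.V) => ρ.ρ σ v) := by
    rw [← coinvKer_toAddSubgroup]
    exact hxU
  have h2 := hex ρ.V _ hV (J • (⊤ : Submodule A ρ.V)).toAddSubgroup hN x hxJ hxaug
  have hle : augOn P (fun σ (v : ρ.V) => ρ.ρ σ v)
      (((J • (⊤ : Submodule A ρ.V)).toAddSubgroup : AddSubgroup ρ.V) : Set ρ.V)
      ≤ (J • coinvKer P ρ).toAddSubgroup := by
    rw [augOn, AddSubgroup.closure_le]
    rintro w ⟨σ, hσ, n, hn, rfl⟩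
    have hn' : n ∈ J • (⊤ : Submodule A ρ.V) := hn
    show ρ.ρ σ n - n ∈ J • coinvKer P ρ
    refine Submodule.smul_induction_on hn' ?_ ?_
    · intro j hj v _
      have : ρ.ρ σ (j • v) - j • v = j • (ρ.ρ σ v - v) := by
        rw [smul_sub, map_smul]
      rw [this]
      exact Submodule.smul_mem_smul hj (sub_mem_coinvKer P ρ hσ v)
    · intro y z hy hz
      have : ρ.ρ σ (y + z) - (y + z) = (ρ.ρ σ y - y) + (ρ.ρ σ z - z) := by
        rw [map_add]
        abel
      rw [this]
      exact Submodule.add_mem _ hy hz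
  exact hle h2

/-- `coinvKer` is stable under the decomposition group. -/
theorem map_mem_coinvKer (P : ValuationSubring Kb) (ρ : GaloisRepAdic A) {τ : GK}
    (hτ : τ ∈ P.decompositionSubgroup ℚ) {x : ρ.V} (hx : x ∈ coinvKer P ρ) :
    ρ.ρ τ x ∈ coinvKer P ρ := by
  refine Submodule.span_induction (p := fun x _ => ρ.ρ τ x ∈ coinvKer P ρ) ?_ ?_ ?_ ?_ hx
  · rintro w ⟨σ, hσ, v, rfl⟩
    have hconj : τ * σ * τ⁻¹ ∈ P.inertiaSubgroupIn ℚ := by
      have h1 := Fermat.Agent.KFin.kf_conj_mem_inertiaSubgroupIn P τ σ hσ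
      have h2 : τ • P = P := hτ
      rwa [h2] at h1
    have h3 : ρ.ρ τ (ρ.ρ σ v - v) = ρ.ρ (τ * σ * τ⁻¹) (ρ.ρ τ v) - ρ.ρ τ v := by
      rw [map_sub]
      congr 1
      rw [← Module.End.mul_apply, ← Module.End.mul_apply, ← map_mul, ← map_mul,
        inv_mul_cancel_right]
    rw [h3]
    exact sub_mem_coinvKer P ρ hconj _
  · rw [map_zero]
    exact Submodule.zero_mem _
  · intro y z _ _ hy hz
    rw [map_add]
    exact Submodule.add_mem _ hy hz
  · intro a y _ hy
    rw [map_smul]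
    exact Submodule.smul_mem _ a hy

omit [IsLocalRing A] in
/-- a vector all of whose coordinates lie in the ideal `J` lies in `J V`. -/
theorem mem_smul_top_of_repr_mem {V : Type*} [AddCommGroup V] [Module A V]
    (e : Module.Basis (Fin 2) A V) (J : Ideal A) (v : V) (h : ∀ i, e.repr v i ∈ J) :
    v ∈ J • (⊤ : Submodule A V) := by
  rw [← e.sum_repr v]
  exact Submodule.sum_mem _ fun i _ => Submodule.smul_mem_smul (h i) Submodule.mem_top

/-- **FFL-FREE (b), at one place**: if the coinvariants of the residual representation are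
neither `0` nor everything, then `U = coinvKer` is spanned by the first vector of a basis. -/
theorem exists_basis_coinvKer [Finite A] {p : ℕ} {P : ValuationSubring Kb}
    (hex : ExactProp p P) (ρ : GaloisRepAdic A) (hfl : ρ.IsFlatAt p)
    (h1 : coinvKer P ρ ⊔ maximalIdeal A • (⊤ : Submodule A ρ.V) ≠ ⊤)
    (h2 : ¬ coinvKer P ρ ≤ maximalIdeal A • (⊤ : Submodule A ρ.V)) :
    ∃ b : Module.Basis (Fin 2) A ρ.V, coinvKer P ρ = Submodule.span A {b 0} := by
  classical
  set U := coinvKer P ρ with hU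
  set mV := maximalIdeal A • (⊤ : Submodule A ρ.V) with hmV
  let e : Module.Basis (Fin 2) A ρ.V := Module.finBasisOfFinrankEq A ρ.V ρ.finrank_eq
  -- a basis vector outside `U + 𝔪 V`
  have hex1 : ∃ i, e i ∉ U ⊔ mV := by
    by_contra hcon
    push Not at hcon
    apply h1
    rw [eq_top_iff, ← e.span_eq, Submodule.span_le]
    rintro _ ⟨i, rfl⟩
    exact hcon i
  obtain ⟨i₀, hi₀⟩ := hex1
  -- an element of `U` outside `𝔪 V`
  obtain ⟨u, huU, humV⟩ := SetLike.not_le_iff_exists.mp h2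
  -- the other index
  obtain ⟨j₀, hj₀, hsum⟩ : ∃ j₀ : Fin 2, j₀ ≠ i₀ ∧
      ∀ f : Fin 2 → ρ.V, ∑ k, f k = f i₀ + f j₀ := by
    fin_cases i₀
    · exact ⟨1, by decide, fun f => by rw [Fin.sum_univ_two]; rfl⟩
    · exact ⟨0, by decide, fun f => by rw [Fin.sum_univ_two, add_comm]; rfl⟩
  have hall : ∀ k : Fin 2, k = i₀ ∨ k = j₀ := by
    intro k
    fin_cases i₀ <;> fin_cases j₀ <;> fin_cases k <;> simp_all
  have hu_exp : u = e.repr u i₀ • e i₀ + e.repr u j₀ • e j₀ := by
    conv_lhs => rw [← e.sum_repr u]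
    exact hsum _
  -- the `j₀`-coordinate of `u` is a unit
  have hunit : IsUnit (e.repr u j₀) := by
    by_contra hnu
    have hj_mem : e.repr u j₀ ∈ maximalIdeal A := (mem_maximalIdeal _).mpr hnu
    have hi_unit : IsUnit (e.repr u i₀) := by
      by_contra hnu'
      have hi_mem : e.repr u i₀ ∈ maximalIdeal A := (mem_maximalIdeal _).mpr hnu'
      apply humV
      refine mem_smul_top_of_repr_mem e _ u fun k => ?_
      rcases hall k with hk | hk
      · rw [hk]
        exact hi_mem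
      · rw [hk]
        exact hj_mem
    apply hi₀
    obtain ⟨a, ha⟩ := hi_unit
    have h3 : e i₀ = (↑a⁻¹ : A) • u - (↑a⁻¹ : A) • (e.repr u j₀ • e j₀) := by
      have h' : u - e.repr u j₀ • e j₀ = e.repr u i₀ • e i₀ := by
        rw [sub_eq_iff_eq_add]
        exact hu_exp
      rw [← smul_sub, h', smul_smul, ← ha, Units.inv_mul, one_smul]
    rw [h3]
    refine Submodule.sub_mem _ (Submodule.mem_sup_left (Submodule.smul_mem _ _ huU))
      (Submodule.mem_sup_right ?_)
    rw [smul_smul]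
    exact Submodule.smul_mem_smul (Ideal.mul_mem_left _ _ hj_mem) Submodule.mem_top
  obtain ⟨a, ha⟩ := hunit
  have hej : e j₀ = (↑a⁻¹ : A) • u - (↑a⁻¹ : A) • (e.repr u i₀ • e i₀) := by
    have h' : u - e.repr u i₀ • e i₀ = e.repr u j₀ • e j₀ := by
      rw [sub_eq_iff_eq_add, add_comm]
      exact hu_exp
    rw [← smul_sub, h', smul_smul, ← ha, Units.inv_mul, one_smul]
  -- `(u, e i₀)` is a basis
  have hspan : ⊤ ≤ Submodule.span A (Set.range ![u, e i₀]) := by
    rw [← e.span_eq, Submodule.span_le]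
    rintro _ ⟨k, rfl⟩
    have hu_mem : u ∈ Submodule.span A (Set.range ![u, e i₀]) :=
      Submodule.subset_span ⟨0, rfl⟩
    have he_mem : e i₀ ∈ Submodule.span A (Set.range ![u, e i₀]) :=
      Submodule.subset_span ⟨1, rfl⟩
    rcases hall k with hk | hk
    · rw [hk]
      exact he_mem
    · rw [hk, hej]
      exact Submodule.sub_mem _ (Submodule.smul_mem _ _ hu_mem)
        (Submodule.smul_mem _ _ (Submodule.smul_mem _ _ he_mem))
  have hcard : Fintype.card (Fin 2) = Module.finrank A ρ.V := by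
    rw [ρ.finrank_eq, Fintype.card_fin]
  let b : Module.Basis (Fin 2) A ρ.V := basisOfTopLeSpanOfCardEqFinrank ![u, e i₀] hspan hcard
  have hb0 : b 0 = u := by
    simp [b, coe_basisOfTopLeSpanOfCardEqFinrank]
  have hb1 : b 1 = e i₀ := by
    simp [b, coe_basisOfTopLeSpanOfCardEqFinrank]
  have hexpb : ∀ x : ρ.V, x = b.repr x 0 • u + b.repr x 1 • e i₀ := by
    intro x
    conv_lhs => rw [← b.sum_repr x, Fin.sum_univ_two, hb0, hb1]
  refine ⟨b, ?_⟩
  rw [hb0]
  apply le_antisymm
  · intro x hx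
    have hxe := hexpb x
    -- the second coordinate of `x` vanishes
    have hc : b.repr x 1 = 0 := by
      set c := b.repr x 1 with hcdef
      have h3 : c • e i₀ ∈ U := by
        have : c • e i₀ = x - b.repr x 0 • u := by
          rw [eq_sub_iff_add_eq, add_comm]
          exact hxe.symm
        rw [this]
        exact Submodule.sub_mem _ hx (Submodule.smul_mem _ _ huU)
      have h4 : c • e i₀ ∈ (Ideal.span {c} : Ideal A) • (⊤ : Submodule A ρ.V) :=
        Submodule.smul_mem_smul (Ideal.mem_span_singleton_self c) Submodule.mem_top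
      have h5 := coinv_flat hex ρ hfl (Ideal.span {c}) ⟨h4, h3⟩
      rw [Submodule.ideal_span_singleton_smul] at h5
      obtain ⟨u', hu', hcu'⟩ := (Submodule.mem_smul_pointwise_iff_exists _ _ _).mp h5
      -- coordinates of `u'`
      have h6 : b.repr (c • u') 1 = b.repr (c • e i₀) 1 := by rw [hcu']
      rw [map_smul, map_smul, ← hb1, b.repr_self] at h6
      simp only [Finsupp.smul_apply, Finsupp.single_eq_same, smul_eq_mul, mul_one] at h6
      -- `b.repr u' 1` is not a unit
      have hnu : ¬ IsUnit (b.repr u' 1) := by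
        rintro ⟨d, hd⟩
        apply hi₀
        have h7 : e i₀ = (↑d⁻¹ : A) • u' - (↑d⁻¹ : A) • (b.repr u' 0 • u) := by
          have h' : u' - b.repr u' 0 • u = b.repr u' 1 • e i₀ := by
            rw [sub_eq_iff_eq_add, add_comm]
            exact hexpb u'
          rw [← smul_sub, h', smul_smul, ← hd, Units.inv_mul, one_smul]
        rw [h7]
        exact Submodule.mem_sup_left (Submodule.sub_mem _ (Submodule.smul_mem _ _ hu')
          (Submodule.smul_mem _ _ (Submodule.smul_mem _ _ huU)))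
      have hunit2 : IsUnit (1 - b.repr u' 1) :=
        IsLocalRing.isUnit_one_sub_self_of_mem_nonunits _ hnu
      have h8 : c * (1 - b.repr u' 1) = 0 := by
        rw [mul_sub, mul_one, h6, sub_self]
      exact (hunit2.mul_left_eq_zero).mp h8
    rw [hc, zero_smul, add_zero] at hxe
    rw [hxe]
    exact Submodule.smul_mem _ _ (Submodule.mem_span_singleton_self u)
  · rw [Submodule.span_le, Set.singleton_subset_iff]
    exact huU

/-- **FFL-FREE (b)**: a flat representation over a finite local ring whose residual inertia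
coinvariants are neither `0` nor everything (at every place over `p`) is ordinary at `p`. -/
theorem isOrdinaryAt_of_flat [Finite A] {p : ℕ}
    (hex : ∀ P : ValuationSubring Kb, P.LiesOverPrime p → ExactProp p P)
    (ρ : GaloisRepAdic A) (hfl : ρ.IsFlatAt p)
    (h1 : ∀ P : ValuationSubring Kb, P.LiesOverPrime p →
      coinvKer P ρ ⊔ maximalIdeal A • (⊤ : Submodule A ρ.V) ≠ ⊤)
    (h2 : ∀ P : ValuationSubring Kb, P.LiesOverPrime p →
      ¬ coinvKer P ρ ≤ maximalIdeal A • (⊤ : Submodule A ρ.V)) :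
    ρ.IsOrdinaryAt p := by
  intro P hP
  obtain ⟨b, hb⟩ := exists_basis_coinvKer (hex P hP) ρ hfl (h1 P hP) (h2 P hP)
  refine ⟨coinvKer P ρ, ⟨b, hb⟩, fun σ hσ v hv => map_mem_coinvKer P ρ hσ hv,
    fun σ hσ v => sub_mem_coinvKer P ρ hσ v⟩

end Fermat.Agent.FFL
end MergeWrap_Lib_FFL_Free
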